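/-
helper34: P-FF / FF-E-SUB.  From a Hopf model of `Z` to a concrete Hopf order on a Galois-stable
subgroup `Z' ≤ Z`, and (given FF-CORE) Hopf models pass to Galois-stable subgroups.
-/
import Fermat.Agent.H10.FF.Interfaces

set_option autoImplicit false

noncomputable section

open TensorProduct

namespace Fermat.Agent.H34

open Fermat.Agent.H10.FF

/-- Every element of a tensor product is a finite sum of pure tensors, indexed by `Fin n`. -/
theorem tensor_exists_fin {R M N : Type*} [CommSemiring R] [AddCommMonoid M] [AddCommMonoid N]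
    [Module R M] [Module R N] (t : M ⊗[R] N) :
    ∃ (n : ℕ) (x : Fin n → M) (y : Fin n → N), t = ∑ i, x i ⊗ₜ[R] y i := by
  classical
  obtain ⟨S, hS⟩ := TensorProduct.exists_finset t
  refine ⟨S.card, fun i => (S.equivFin.symm i).1.1, fun i => (S.equivFin.symm i).1.2, ?_⟩
  rw [hS, ← Finset.sum_coe_sort S]
  exact (Equiv.sum_comp S.equivFin.symm (fun s : S => s.1.1 ⊗ₜ[R] s.1.2)).symm

/-- The convolution inverse of an algebra hom out of a Hopf algebra is the composition with the
antipode (target: any commutative algebra). -/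
theorem convAntipode_mul_cancel {R A C : Type*} [CommSemiring R] [CommSemiring A]
    [CommSemiring C] [Algebra R C] [HopfAlgebra R A] (f : WithConv (A →ₐ[R] C)) :
    WithConv.toConv (f.ofConv.comp (HopfAlgebra.antipodeAlgHom R A)) * f = 1 := by
  have H : (Algebra.TensorProduct.lmul' R).comp (Algebra.TensorProduct.map f.ofConv f.ofConv) =
      f.ofConv.comp (Algebra.TensorProduct.lmul' R) := by ext <;> simp
  trans WithConv.toConv <| ((Algebra.TensorProduct.lmul' R).comp
      (Algebra.TensorProduct.map f.ofConv f.ofConv)).comp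
      ((Algebra.TensorProduct.map
      (HopfAlgebra.antipodeAlgHom R A) (.id _ _)).comp (Bialgebra.comulAlgHom R A))
  · rw [AlgHom.comp_assoc, ← AlgHom.comp_assoc (Algebra.TensorProduct.map f.ofConv f.ofConv),
        ← Algebra.TensorProduct.map_comp]; rfl
  rw [H, AlgHom.comp_assoc, WithConv.ext_iff, ← AlgHom.toLinearMap_injective.eq_iff]
  change f.ofConv.toLinearMap.comp (WithConv.toConv (HopfAlgebra.antipode R (A := A)) *
      WithConv.toConv LinearMap.id).ofConv = WithConv.ofConv (1 : WithConv <| A →ₗ[R] C)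
  rw [LinearMap.antipode_mul_id]
  ext
  simp

section model

variable {ℓ : ℕ} {Z : Type} [AddCommGroup Z]

/-- **FF-E-SUB, concrete form**: a Hopf model of `Z` induces a concrete Hopf order on every
Galois-stable subgroup `Z'` of `Z` (restriction of functions). -/
theorem exists_concreteOrder_of_model (act : GQ → Z → Z) (Z' : AddSubgroup Z)
    (hZ' : ∀ (σ : GQ), ∀ z ∈ Z', act σ z ∈ Z') (h : HasHopfModel ℓ Z act) :
    ∃ H₀ : Subalgebra (Zl ℓ) (Z' → AlgebraicClosure ℚ),
      IsConcreteHopfOrder ℓ (fun (σ : GQ) (z : Z') => (⟨act σ z, hZ' σ z z.2⟩ : Z')) H₀ := by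
  obtain ⟨H, _, _, hfin, hflat, hco, e, hadd, hgal⟩ := h
  -- the group structure
  have he1 : e 1 = 0 := by
    have := hadd 1 1
    rw [mul_one] at this
    exact (add_eq_left.mp this.symm)
  have hesymm_add : ∀ z z' : Z, e.symm (z + z') = e.symm z * e.symm z' := by
    intro z z'
    apply e.injective
    rw [hadd, e.apply_symm_apply, e.apply_symm_apply, e.apply_symm_apply]
  have hesymm_neg : ∀ z : Z, e.symm (-z)
      = WithConv.toConv ((e.symm z).ofConv.comp (HopfAlgebra.antipodeAlgHom (Zl ℓ) H)) := by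
    intro z
    apply e.injective
    rw [e.apply_symm_apply]
    have h1 := hadd (WithConv.toConv
      ((e.symm z).ofConv.comp (HopfAlgebra.antipodeAlgHom (Zl ℓ) H))) (e.symm z)
    rw [convAntipode_mul_cancel, he1, e.apply_symm_apply] at h1
    exact (neg_eq_of_add_eq_zero_left h1.symm)
  -- evaluation
  let ev : H →ₐ[Zl ℓ] (Z' → AlgebraicClosure ℚ) :=
    AlgHom.pi (fun z : Z' => (e.symm (z : Z)).ofConv)
  have hev : ∀ (x : H) (z : Z'), ev x z = (e.symm (z : Z)).ofConv x := fun _ _ => rfl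
  refine ⟨ev.range, ?_, ?_, ?_, ?_, ?_⟩
  · -- equivariance
    rintro f ⟨x, rfl⟩ σ z
    let σR : AlgebraicClosure ℚ →ₐ[Zl ℓ] AlgebraicClosure ℚ :=
      (σ : AlgebraicClosure ℚ →ₐ[ℚ] AlgebraicClosure ℚ).restrictScalars (Zl ℓ)
    let g : WithConv (H →ₐ[Zl ℓ] AlgebraicClosure ℚ) :=
      WithConv.toConv (σR.comp (e.symm (z : Z)).ofConv)
    have h1 : e g = act σ (e (e.symm (z : Z))) := hgal σ (e.symm (z : Z)) g (fun _ => rfl)
    rw [e.apply_symm_apply] at h1
    have h2 : e.symm (act σ (z : Z)) = g := by rw [← h1, e.symm_apply_apply]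
    show (e.symm (act σ (z : Z))).ofConv x = σ ((e.symm (z : Z)).ofConv x)
    rw [h2]
    rfl
  · -- finiteness
    have h1 : Subalgebra.toSubmodule ev.range = LinearMap.range ev.toLinearMap := rfl
    rw [h1, LinearMap.range_eq_map]
    exact Submodule.FG.map _ Module.Finite.fg_top
  · -- separation
    intro z z' hzz'
    have h1 : (z : Z) ≠ (z' : Z) := fun h => hzz' (Subtype.ext h)
    have h2 : (e.symm (z : Z)).ofConv ≠ (e.symm (z' : Z)).ofConv := by
      intro h
      exact h1 (e.symm.injective (WithConv.ext h))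
    obtain ⟨x, hx⟩ := DFunLike.ne_iff.mp h2
    exact ⟨ev x, ⟨x, rfl⟩, hx⟩
  · -- comultiplication
    rintro f ⟨x, rfl⟩
    obtain ⟨n, a, b, hab⟩ := tensor_exists_fin (Coalgebra.comul (R := Zl ℓ) x)
    refine ⟨n, fun i => ev (a i), fun i => ev (b i), fun i => ⟨a i, rfl⟩, fun i => ⟨b i, rfl⟩,
      ?_⟩
    intro z z'
    show (e.symm ((z : Z) + (z' : Z))).ofConv x = _
    rw [hesymm_add]
    have h1 := AlgHom.convMul_apply (e.symm (z : Z)) (e.symm (z' : Z)) x
    rw [hab, map_sum] at h1
    simp only [Algebra.TensorProduct.lift_tmul] at h1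
    exact h1
  · -- antipode
    rintro f ⟨x, rfl⟩
    refine ⟨HopfAlgebra.antipodeAlgHom (Zl ℓ) H x, ?_⟩
    funext z
    show (e.symm (z : Z)).ofConv (HopfAlgebra.antipodeAlgHom (Zl ℓ) H x)
      = (e.symm (-(z : Z))).ofConv x
    rw [hesymm_neg]
    rfl

end model

/-- **FF-E-SUB** (given FF-CORE): Hopf models pass to Galois-stable subgroups. -/
theorem subgroupModel_of_core (hcore : ConcreteOrderStatement) : SubgroupModelStatement := by
  intro ℓ _ Z _ _ _ Z' hZ' h
  obtain ⟨H₀, hH₀⟩ := exists_concreteOrder_of_model (ℓ := ℓ)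
    (fun (σ : GQ) (z : Z) => σ • z) Z' hZ' h
  let _ : MulAction GQ Z' :=
    { smul := fun σ z => ⟨σ • (z : Z), hZ' σ z z.2⟩
      one_smul := fun z => Subtype.ext (one_smul GQ (z : Z))
      mul_smul := fun σ τ z => Subtype.ext (mul_smul σ τ (z : Z)) }
  exact hcore ℓ Z' H₀ hH₀

end Fermat.Agent.H34

end
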