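/-
helper34: P-FF / FF-F2.  `V / Ann(W) V` embeds equivariantly into a power of `W`
(`Fermat.Agent.H72.FF.EmbeddingStatement`).  Pure algebra.
-/
import Fermat.Agent.H72.FF.FlatInterfaces

set_option autoImplicit false

namespace Fermat.Agent.H34

section ffEmbed

variable {T : Type} [CommRing T] {V : Type} [AddCommGroup V] [Module T V]
  {W : Type} [AddCommGroup W] [Module T W]

/-- The endomorphism `x ↦ c x • v`, linear in `v`. -/
def ffCol (c : V →ₗ[T] T) : V →ₗ[T] Module.End T V where
  toFun v := c.smulRight v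
  map_add' v w := by
    ext x
    simp [smul_add]
  map_smul' a v := by
    ext x
    exact smul_comm (c x) a v

theorem ffCol_apply (c : V →ₗ[T] T) (v x : V) : ffCol c v x = c x • v := rfl

theorem mul_ffCol (c : V →ₗ[T] T) (f : Module.End T V) (v : V) :
    f * ffCol c v = ffCol c (f v) := by
  ext x
  rw [Module.End.mul_apply, ffCol_apply, ffCol_apply, map_smul]

theorem ffEmbed_map_mul_col (c : V →ₗ[T] T) (Φ : Module.End T V →ₐ[T] Module.End T W)
    (f : Module.End T V) (v : V) :
    Φ (ffCol c (f v)) = Φ f * Φ (ffCol c v) := by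
  rw [← mul_ffCol, map_mul]

/-- The decomposition `1 = E₀₀ + E₁₀ E₀₀ E₀₁`. -/
theorem ffEmbed_one_eq (e : Module.Basis (Fin 2) T V) :
    (1 : Module.End T V) = ffCol (e.coord 0) (e 0)
      + ffCol (e.coord 0) (e 1) * ffCol (e.coord 0) (e 0) * ffCol (e.coord 1) (e 0) := by
  ext y
  rw [LinearMap.add_apply, Module.End.mul_apply, Module.End.mul_apply, Module.End.one_apply]
  simp only [ffCol_apply, map_smul, Module.Basis.coord_apply, Module.Basis.repr_self,
    Finsupp.single_eq_same, one_smul]
  have h := e.sum_repr y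
  rw [Fin.sum_univ_two] at h
  exact h.symm

theorem ffEmbed_mem_annihilator (e : Module.Basis (Fin 2) T V)
    (Φ : Module.End T V →ₐ[T] Module.End T W) (x : T)
    (hx : x • Φ (ffCol (e.coord 0) (e 0)) = 0) : x ∈ Module.annihilator T W := by
  rw [Module.mem_annihilator]
  intro w
  have h1 : x • (1 : Module.End T W) = 0 := by
    have h2 : (1 : Module.End T W) = Φ (ffCol (e.coord 0) (e 0))
        + Φ (ffCol (e.coord 0) (e 1)) * Φ (ffCol (e.coord 0) (e 0))
          * Φ (ffCol (e.coord 1) (e 0)) := by
      rw [← map_mul, ← map_mul, ← map_add, ← ffEmbed_one_eq e, map_one]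
    rw [h2, smul_add, ← smul_mul_assoc, ← mul_smul_comm, hx, mul_zero, zero_mul, add_zero]
  have h3 := LinearMap.congr_fun h1 w
  simpa using h3

theorem ffEmbed_key (e : Module.Basis (Fin 2) T V) (Φ : Module.End T V →ₐ[T] Module.End T W)
    (v : V) :
    Φ (ffCol (e.coord 0) v) = 0 ↔ v ∈ Module.annihilator T W • (⊤ : Submodule T V) := by
  constructor
  · intro hv
    have hstep : ∀ f : Module.End T V, Φ (ffCol (e.coord 0) (f v)) = 0 := by
      intro f
      rw [ffEmbed_map_mul_col, hv, mul_zero]
    have ha : e.coord 0 v ∈ Module.annihilator T W := by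
      apply ffEmbed_mem_annihilator e Φ
      have h := hstep (ffCol (e.coord 0) (e 0))
      rw [ffCol_apply, map_smul, map_smul] at h
      exact h
    have hb : e.coord 1 v ∈ Module.annihilator T W := by
      apply ffEmbed_mem_annihilator e Φ
      have h := hstep (ffCol (e.coord 1) (e 0))
      rw [ffCol_apply, map_smul, map_smul] at h
      exact h
    have hsum := e.sum_repr v
    rw [Fin.sum_univ_two] at hsum
    rw [← hsum]
    exact Submodule.add_mem _ (Submodule.smul_mem_smul ha Submodule.mem_top)
      (Submodule.smul_mem_smul hb Submodule.mem_top)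
  · intro hv
    refine Submodule.smul_induction_on hv ?_ ?_
    · intro a ha u _
      rw [map_smul, map_smul]
      ext w
      rw [LinearMap.smul_apply, LinearMap.zero_apply]
      exact Module.mem_annihilator.mp ha _
    · intro x y hx hy
      rw [map_add, map_add, hx, hy, add_zero]

/-- The embedding map `v ↦ (Φ [v | 0] w)_w`. -/
def ffEmbedMap (c : V →ₗ[T] T) (Φ : Module.End T V →ₐ[T] Module.End T W) {r : ℕ}
    (w : Fin r → W) : V →ₗ[T] (Fin r → W) where
  toFun v := fun i => Φ (ffCol c v) (w i)
  map_add' u v := by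
    funext i
    simp [map_add]
  map_smul' a v := by
    funext i
    simp [map_smul]

theorem ffEmbedMap_apply (c : V →ₗ[T] T) (Φ : Module.End T V →ₐ[T] Module.End T W) {r : ℕ}
    (w : Fin r → W) (v : V) (i : Fin r) : ffEmbedMap c Φ w v i = Φ (ffCol c v) (w i) := rfl

end ffEmbed

/-- **FF-F2**: `V / Ann(W) V` embeds equivariantly into a power of `W`. -/
theorem embedding : Fermat.Agent.H72.FF.EmbeddingStatement := by
  intro T _ G _ V _ _ _ _ hrank ρ W _ _ _ τ Φ hΦ
  have : Nontrivial T := by
    by_contra hT
    rw [not_nontrivial_iff_subsingleton] at hT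
    have h1 : Module.rank T V = 1 := rank_subsingleton T V
    have h2 : Module.finrank T V = 1 := by
      rw [Module.finrank, h1, Cardinal.one_toNat]
    omega
  let e : Module.Basis (Fin 2) T V := Module.finBasisOfFinrankEq T V hrank
  let w : Fin (Nat.card W) → W := (Finite.equivFin W).symm
  refine ⟨Nat.card W, ffEmbedMap (e.coord 0) Φ w, ?_, ?_⟩
  · intro g v
    funext i
    rw [ffEmbedMap_apply, ffEmbedMap_apply]
    have h1 : Φ (ffCol (e.coord 0) ((ρ g) v)) = Φ (ρ g) * Φ (ffCol (e.coord 0) v) :=
      ffEmbed_map_mul_col (e.coord 0) Φ (ρ g) v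
    rw [h1, hΦ g, Module.End.mul_apply]
  · intro v
    rw [← ffEmbed_key e Φ v]
    constructor
    · intro h
      ext x
      obtain ⟨i, rfl⟩ := (Finite.equivFin W).symm.surjective x
      have h2 := congrFun h i
      rw [LinearMap.zero_apply]
      exact h2
    · intro h
      funext i
      rw [ffEmbedMap_apply, h]
      rfl

end Fermat.Agent.H34
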