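/-
helper34: P-FF / FF-E-SUB, unconditional form.  Hopf models pass to Galois-stable subgroups:
`Fermat.Agent.H10.FF.SubgroupModelStatement`, by plugging helper10's bridge theorem
`concreteOrderStatement` into `subgroupModel_of_core`.
-/
import Fermat.Agent.H34.FF.SubModel
import Fermat.Agent.H10.FF.Points

set_option autoImplicit false

namespace Fermat.Agent.H34

/-- **FF-E-SUB** (unconditional): Hopf models pass to Galois-stable subgroups. -/
theorem subgroupModel : Fermat.Agent.H10.FF.SubgroupModelStatement :=
  subgroupModel_of_core Fermat.Agent.H10.FF.concreteOrderStatement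

end Fermat.Agent.H34
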